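import Fermat.Agent.EC.Rep.Local.StrictOrdinary
import Fermat.Agent.EC.Rep.Local.Unipotent
import Fermat.Agent.EC.Rep.Local.Flat
import Fermat.Agent.EC.Multiplicative.Frobenius
import Fermat.Agent.Deform.Residual
import Fermat.Agent.RT.Two.Hecke.Frame
import Fermat.Agent.RT.Patch.Descend
import Fermat.Agent.RT.Patch.Local

/-!
# The matrices of the Tate module of a semistable model

Their reduction, determinant, inertia and Frobenius elements at the bad primes, the strictly
ordinary line at `p` and flatness at a good `p`, all over a coefficient ring.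
-/

set_option autoImplicit false
set_option linter.style.haveILetI false

noncomputable section

open WeierstrassCurve WeierstrassCurve.Affine
open scoped WeierstrassCurve.Affine Matrix

namespace Fermat.Agent.RT.Lift59.Lift

open IsLocalRing Module
open Fermat.Agent.Arith (QBar GQ)
open Fermat.Agent.Deform (M2 IsCont mapM matOf matRes toRep isCont_matOf)
open Fermat.Agent.EC.Rep (tateRep tateRed residualRep)

variable {W : WeierstrassCurve ℤ} {p : ℕ} [Fact p.Prime] (hΔ : W.Δ ≠ 0)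

/-- The basis of the Tate module. -/
def tateBase : Basis (Fin 2) ℤ_[p] (tateRep W p hΔ).V := Basis.finTwoProd ℤ_[p]

/-- The matrices of the Tate module. -/
def tateMat : GQ →* M2 ℤ_[p] := matOf (tateRep W p hΔ) (tateBase hΔ)

theorem tateMat_eq (σ : GQ) : tateMat (p := p) hΔ σ =
    LinearMap.toMatrixAlgEquiv (tateBase hΔ) ((tateRep W p hΔ).ρ σ) := rfl

theorem trace_tateMat (σ : GQ) :
    (tateMat (p := p) hΔ σ).trace = LinearMap.trace ℤ_[p] _ ((tateRep W p hΔ).ρ σ) :=
  (LinearMap.trace_eq_matrix_trace ℤ_[p] (tateBase hΔ) _).symm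

theorem det_tateMat (σ : GQ) :
    (tateMat (p := p) hΔ σ).det = LinearMap.det ((tateRep W p hΔ).ρ σ) :=
  LinearMap.det_toMatrix (tateBase hΔ) _

/-- The reduction is the representation on the `p`-torsion. -/
theorem exists_residual_basis : ∃ b : Basis (Fin 2) (ZMod p) (residualRep W p hΔ).V,
    mapM PadicInt.toZMod (tateMat hΔ) = matRes (residualRep W p hΔ) b := by
  obtain ⟨b, hP, hQ⟩ := (EC.Rep.exists_curve_tateBasis W p hΔ).choose_spec
  set B := EC.Rep.tateBasis W p hΔ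
  refine ⟨b, ?_⟩
  have hcast : ∀ (x : ℤ_[p]) (a : ℤ), x - a ∈ Ideal.span {(p : ℤ_[p]) ^ 1} →
      PadicInt.toZMod x = (a : ZMod p) := fun x a h => by
    rw [← map_intCast PadicInt.toZMod a, ← sub_eq_zero, ← map_sub, ← RingHom.mem_ker,
      PadicInt.ker_toZMod, PadicInt.maximalIdeal_eq_span_p]
    rwa [pow_one] at h
  have hbase : ∀ j, tateRed (p := p) hΔ 1 (tateBase (p := p) hΔ j) = Subtype.val (b j) := by
    intro j
    fin_cases j
    · show B.red 1 (tateBase (p := p) hΔ 0) = _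
      rw [show (tateBase (p := p) hΔ 0 : ℤ_[p] × ℤ_[p]) = (((1 : ℤ) : ℤ_[p]), ((0 : ℤ) : ℤ_[p])) by
        rw [Int.cast_one, Int.cast_zero]; exact Basis.finTwoProd_zero ℤ_[p], B.red_intCast,
        zero_zsmul, add_zero, one_zsmul]
      exact hP
    · show B.red 1 (tateBase (p := p) hΔ 1) = _
      rw [show (tateBase (p := p) hΔ 1 : ℤ_[p] × ℤ_[p]) = (((0 : ℤ) : ℤ_[p]), ((1 : ℤ) : ℤ_[p])) by
        rw [Int.cast_one, Int.cast_zero]; exact Basis.finTwoProd_one ℤ_[p], B.red_intCast,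
        zero_zsmul, zero_add, one_zsmul]
      exact hQ
  refine MonoidHom.ext fun σ => Matrix.ext fun i j => ?_
  rw [Deform.mapM_apply, tateMat, Deform.matOf_apply, Deform.matRes_apply]
  set v := (tateRep W p hΔ).ρ σ (tateBase hΔ j) with hv
  obtain ⟨a, c, ha, hc, e⟩ := B.exists_red_eq 1 v
  have hj : (residualRep W p hΔ).ρ σ (b j) = (a : ZMod p) • b 0 + (c : ZMod p) • b 1 := by
    rw [Int.cast_smul_eq_zsmul, Int.cast_smul_eq_zsmul]
    refine Subtype.ext ?_
    show σ • Subtype.val (b j) = a • Subtype.val (b 0) + c • Subtype.val (b 1)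
    rw [← hbase, ← EC.Rep.red_tateRep, ← hP, ← hQ]
    exact e
  rw [hj, map_add, map_smul, map_smul, b.repr_self, b.repr_self]
  fin_cases i
  · show PadicInt.toZMod (v : ℤ_[p] × ℤ_[p]).1 = _
    simpa using hcast _ _ ha
  · show PadicInt.toZMod (v : ℤ_[p] × ℤ_[p]).2 = _
    simpa using hcast _ _ hc

/-- Inertia at a semistable prime other than `p` has trace two. -/
theorem trace_tateMat_inertia {q : ℕ} (hq : q.Prime) (hqp : q ≠ p)
    (hss : ¬ ((q : ℤ) ∣ W.c₄ ∧ (q : ℤ) ∣ W.Δ)) {A : ValuationSubring QBar}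
    (hA : A.LiesOverPrime q) {σ : GQ} (hσ : σ ∈ A.inertiaSubgroupIn ℚ) :
    (tateMat (p := p) hΔ σ).trace = 2 := by
  have h := EC.Rep.isUnipotentOnInertiaAt_tateRep (p := p) hΔ hq hqp hss A hA σ hσ
  rw [← LinearMap.charpoly_toMatrix _ (tateBase hΔ)] at h
  have h' : (tateMat (p := p) hΔ σ).charpoly = _ := h
  rw [Matrix.charpoly_fin_two] at h'
  have h1 := congrArg (fun f => Polynomial.coeff f 1) h'
  simp [sub_sq, Polynomial.coeff_X_pow, Polynomial.coeff_one] at h1
  exact h1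

theorem tateMat_eq_one_of_good {q : ℕ} (hq : q.Prime) (hgood : W.IsGoodPrimeFor q) (hqp : q ≠ p)
    {A : ValuationSubring QBar} (hA : A.LiesOverPrime q) {σ : GQ}
    (hσ : σ ∈ A.inertiaSubgroupIn ℚ) : tateMat (p := p) hΔ σ = 1 := by
  rw [tateMat_eq, EC.Rep.isUnramifiedAt_tateRep hΔ hq hgood hqp A hA σ hσ, map_one]

theorem trace_tateMat_frobenius {ℓ : ℕ} (hℓ : ℓ.Prime) (hgood : W.IsGoodPrimeFor ℓ) (hne : ℓ ≠ p)
    {A : ValuationSubring QBar} (hA : A.LiesOverPrime ℓ) {σ : GQ} (hσ : A.IsFrobeniusAt σ ℓ) :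
    (tateMat (p := p) hΔ σ).trace = W.apOfModel ℓ :=
  (trace_tateMat hΔ σ).trans (EC.Rep.tateRep_trace_det_frobenius hΔ hℓ hgood hne hA hσ).1

theorem det_tateMat_congr (n : ℕ) (σ : GQ) (a : ℕ)
    (ha : ∀ μ : QBar, μ ^ p ^ n = 1 → σ μ = μ ^ a) :
    (tateMat (p := p) hΔ σ).det - a ∈ Ideal.span {(p : ℤ_[p]) ^ n} := by
  rw [det_tateMat]
  have h := (EC.Rep.detIsCyclotomic_tateRep hΔ).2 n σ a ha
  rwa [Nat.cast_pow] at h

theorem det_tateMat_frobenius {v : ℕ} (hv : v.Prime) (hvp : v ≠ p) {A : ValuationSubring QBar}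
    (hA : A.LiesOverPrime v) {Fr : GQ} (hFr : A.IsFrobeniusAt Fr v) :
    (tateMat (p := p) hΔ Fr).det = v :=
  Patch.eq_natCast_of_forall_congr
    (by rw [PadicInt.maximalIdeal_eq_span_p]; exact Ideal.mem_span_singleton_self _)
    fun k => det_tateMat_congr hΔ k Fr v fun μ hμ =>
      GaloisReps.frobenius_apply_root hA hv hFr hμ fun h =>
        hvp ((Nat.prime_dvd_prime_iff_eq hv Fact.out).1 (hv.dvd_of_dvd_pow h))

/-- **Frobenius at a multiplicative prime has trace `± (1 + v)`.** -/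
theorem exists_trace_tateMat_mult {v : ℕ} (hv : v.Prime) (hvp : v ≠ p) (hvΔ : (v : ℤ) ∣ W.Δ)
    (hc₄ : ¬ (v : ℤ) ∣ W.c₄) {A : ValuationSubring QBar} (hA : A.LiesOverPrime v) {Fr : GQ}
    (hFr : A.IsFrobeniusAt Fr v) :
    ∃ a : ℤ, a ^ 2 = 1 ∧ (tateMat (p := p) hΔ Fr).trace = a * (1 + v) := by
  obtain ⟨ε, hε, hquad⟩ :=
    EC.Multiplicative.exists_sign_frobenius_quadratic hA hv hΔ hvΔ hc₄ hFr
  have hε2 : ε ^ 2 = 1 := by rcases hε with rfl | rfl <;> norm_num
  refine ⟨ε, hε2, ?_⟩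
  set T := (tateRep W p hΔ).ρ Fr
  have hlin : T * (T - (ε : ℤ_[p]) • 1) = ((ε * v : ℤ) : ℤ_[p]) • (T - (ε : ℤ_[p]) • 1) := by
    refine LinearMap.ext fun x => sub_eq_zero.1 (EC.Rep.tateRed_eq_zero_of_forall hΔ fun n => ?_)
    have hx : (p ^ n : ℕ) • tateRed hΔ n x = 0 := by
      have := EC.Rep.pow_smul_tateRed hΔ n x
      rw [← natCast_zsmul]
      push_cast
      exact this
    have h := hquad (p ^ n) (fun hd => hvp ((Nat.prime_dvd_prime_iff_eq hv Fact.out).1
      (hv.dvd_of_dvd_pow hd))) (tateRed hΔ n x) hx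
    simp only [Module.End.mul_apply, LinearMap.smul_apply, LinearMap.sub_apply,
      Module.End.one_apply, Int.cast_smul_eq_zsmul, map_sub, map_zsmul]
    simp only [T, EC.Rep.red_tateRep]
    rw [← sub_eq_zero] at h
    rw [← h]
    simp only [smul_sub, zsmul_sub]
    congr 2
    exact ((DistribSMul.toAddMonoidHom (EC.Rep.PtQ W) Fr).map_zsmul _ _).symm
  set M := tateMat (p := p) hΔ Fr
  set e : ℤ_[p] := (ε : ℤ_[p])
  have hM : M * (M - e • 1) = ((ε * v : ℤ) : ℤ_[p]) • (M - e • 1) := by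
    have := congrArg (LinearMap.toMatrixAlgEquiv (tateBase hΔ)) hlin
    simp only [map_mul, map_sub, map_smul, map_one] at this
    exact this
  have hd : M.det = v := det_tateMat_frobenius hΔ hv hvp hA hFr
  have he : e * e = 1 := by
    rw [show e * e = ((ε ^ 2 : ℤ) : ℤ_[p]) by push_cast; ring, hε2, Int.cast_one]
  have hch : M * M - M.trace • M + M.det • 1 = 0 := by
    have := Matrix.aeval_self_charpoly M
    rw [Matrix.charpoly_fin_two] at this
    simpa [pow_two, Algebra.smul_def] using this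
  have hzero : (e * (1 + v) - M.trace) • M = 0 := by
    rw [mul_sub, mul_smul_comm, mul_one, Int.cast_mul, Int.cast_natCast, smul_sub, smul_smul,
      show ((ε : ℤ_[p]) * v) * e = v by rw [mul_comm (ε : ℤ_[p]), mul_assoc, he, mul_one]] at hM
    rw [hd] at hch
    linear_combination (norm := module) hch - hM
  have h2 := congrArg Matrix.det hzero
  rw [Matrix.det_smul, Fintype.card_fin, hd, Matrix.det_zero, mul_eq_zero,
    sq_eq_zero_iff, sub_eq_zero] at h2
  exact (h2.resolve_right (Nat.cast_ne_zero.2 hv.ne_zero)).symm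

section Map

variable {O : Type} [CommRing O] [IsLocalRing O] (ι : ℤ_[p] →+* O)

/-- The matrices of the Tate module over the coefficient ring. -/
abbrev tateMatO : GQ →* M2 O := mapM ι (tateMat hΔ)

theorem isCont_tateMatO [IsLocalHom ι] : IsCont (tateMatO hΔ ι) :=
  (isCont_matOf _ _).map ι inferInstance

theorem natCast_mem_of_local [IsLocalHom ι] : (p : O) ∈ maximalIdeal O := by
  rw [← map_natCast ι]
  exact map_nonunit ι _ (by
    rw [PadicInt.maximalIdeal_eq_span_p]; exact Ideal.mem_span_singleton_self _)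

omit [IsLocalRing O] in
theorem trace_tateMatO (σ : GQ) :
    (tateMatO hΔ ι σ).trace = ι (tateMat (p := p) hΔ σ).trace := by
  rw [Matrix.trace_fin_two, Matrix.trace_fin_two, map_add]
  rfl

theorem detIsCyclotomic_tateMatO [IsLocalHom ι] :
    (toRep (tateMatO hΔ ι) (isCont_tateMatO hΔ ι)).DetIsCyclotomic p := by
  refine ⟨natCast_mem_of_local ι, fun n σ a ha => ?_⟩
  show LinearMap.det (Matrix.toLin' (tateMatO hΔ ι σ)) - (a : O) ∈ _
  rw [LinearMap.det_toLin', show tateMatO hΔ ι σ = ι.mapMatrix (tateMat hΔ σ) from rfl,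
    ← RingHom.map_det, Nat.cast_pow]
  obtain ⟨y, hy⟩ := Ideal.mem_span_singleton'.1 (det_tateMat_congr hΔ n σ a ha)
  exact Ideal.mem_span_singleton'.2
    ⟨ι y, by rw [← map_natCast ι a, ← map_sub, ← hy, map_mul, map_pow, map_natCast]⟩

end Map

end Fermat.Agent.RT.Lift59.Lift

end
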